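import Mathlib
import Fermat.Agent.Jac.CharForm
import Fermat.Agent.X0.ModVal
import Fermat.Agent.FF2.G0.RootH

/-!
# MOONSHOT S19, node (G0): the `m`-th root of a form with `m`-divisible orders is a form with
character

`exists_charForm_pow_eq` : let `H : CharForm N (m * k) ψ` be a nonzero holomorphic form of weight
`m k` with character `ψ` on `Γ₀(N)` such that `m ∣ ordH H z` for all `z : ℍ`.  Then there are a
character `χ` with `χ ^ m = ψ` and a form `A : CharForm N k χ` with `A ^ m = H`.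

* holomorphic root: `FF2/G0/RootH.lean`;
* slash law: `(A ∣[k] γ) ^ m = ψ γ • A ^ m`, and two holomorphic functions on `ℍ` whose `m`-th powers
  are proportional are proportional (`eq_smul_of_pow_eq`);
* boundedness at the cusps: `(A ∣[k] σ) ^ m = H ∣[m k] σ` is bounded, hence so is `A ∣[k] σ`.
-/

set_option autoImplicit false

open UpperHalfPlane ModularForm CongruenceSubgroup Filter Topology
open scoped MatrixGroups Manifold ModularForm

noncomputable section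

namespace Fermat.Agent.FF2.G0b

open Fermat.Agent.Jac Fermat.Agent.X0 Fermat.Agent.FF2.G0

/-- Two holomorphic functions on `ℍ` with proportional `m`-th powers are proportional. -/
theorem eq_smul_of_pow_eq {A B : ℍ → ℂ} (hA : MDiff A) (hB : MDiff B) {m : ℕ} (hm : m ≠ 0)
    {c : ℂ} (hc : c ≠ 0) (hA0 : A ≠ 0) (hpow : ∀ z, B z ^ m = c * A z ^ m) :
    ∃ ζ : ℂ, ζ ^ m = c ∧ B = ζ • A := by
  obtain ⟨τ, hτ⟩ := Function.ne_iff.mp hA0
  have hτ' : A τ ≠ 0 := hτ
  refine ⟨B τ / A τ, ?_, ?_⟩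
  · rw [div_pow, hpow τ, mul_div_assoc, div_self (pow_ne_zero m hτ'), mul_one]
  · have hB' : DifferentiableOn ℂ (B ∘ ofComplex) upperHP := mdifferentiable_iff.mp hB
    have hA' : DifferentiableOn ℂ (A ∘ ofComplex) upperHP := mdifferentiable_iff.mp hA
    have hBτ : B τ ≠ 0 := by
      intro h0
      have := hpow τ
      rw [h0, zero_pow hm] at this
      exact mul_ne_zero hc (pow_ne_zero m hτ') this.symm
    have key : Set.EqOn (B ∘ ofComplex) ((B τ / A τ) • (A ∘ ofComplex)) upperHP := by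
      refine eqOn_of_pow_eq_of_eq_at isOpen_upperHP convex_upperHP.isPreconnected hm hB'
        (hA'.const_smul (B τ / A τ)) (fun z hz => ?_) τ.im_pos ?_ ?_
      · simp only [Function.comp_apply, Pi.smul_apply, smul_eq_mul]
        rw [mul_pow, div_pow, hpow, hpow τ]
        field_simp
      · simp only [Function.comp_apply, ofComplex_apply]
        exact hBτ
      · simp only [Function.comp_apply, ofComplex_apply, Pi.smul_apply, smul_eq_mul]
        rw [div_mul_cancel₀ _ hτ']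
    funext z
    have := key z.im_pos
    simpa only [Function.comp_apply, ofComplex_apply, Pi.smul_apply, smul_eq_mul] using this

/-- If `f ^ m` is bounded at `i∞` then so is `f`. -/
theorem isBoundedAtImInfty_of_pow {f : ℍ → ℂ} {m : ℕ} (hm : m ≠ 0)
    (h : IsBoundedAtImInfty (f ^ m)) : IsBoundedAtImInfty f := by
  rw [UpperHalfPlane.isBoundedAtImInfty_iff] at h ⊢
  obtain ⟨M, A, hMA⟩ := h
  refine ⟨max M 1, A, fun z hz => ?_⟩
  have h1 := hMA z hz
  rw [Pi.pow_apply, norm_pow] at h1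
  by_cases h2 : ‖f z‖ ≤ 1
  · exact h2.trans (le_max_right _ _)
  · rw [not_le] at h2
    have h3 : ‖f z‖ ≤ ‖f z‖ ^ m := le_self_pow₀ h2.le hm
    exact (h3.trans h1).trans (le_max_left _ _)

theorem exists_charForm_pow_eq {N : ℕ} {k : ℤ} {m : ℕ} (hm : 0 < m)
    {ψ : ↥(Gamma0 N) →* ℂˣ} (H : CharForm N ((m : ℤ) * k) ψ) (hH : (H : ℍ → ℂ) ≠ 0)
    (hdvd : ∀ z : ℍ, m ∣ ordH (H : ℍ → ℂ) z) :
    ∃ (χ : ↥(Gamma0 N) →* ℂˣ) (A : CharForm N k χ), χ ^ m = ψ ∧ ∀ z, A z ^ m = H z := by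
  obtain ⟨A0, hA0d, hA0pow⟩ := exists_mdiff_pow_eq H.holo hH hm.ne' hdvd
  have hA0ne : A0 ≠ 0 := by
    rintro rfl
    apply hH
    rw [← hA0pow, zero_pow hm.ne']
  -- for each `γ`, the scalar `ζ γ` with `A0 ∣[k] γ = ζ γ • A0`
  have hex : ∀ γ : ↥(Gamma0 N), ∃ ζ : ℂ, ζ ^ m = ((ψ γ : ℂˣ) : ℂ) ∧
      A0 ∣[k] (γ : SL(2, ℤ)) = ζ • A0 := by
    intro γ
    have hB : MDiff (A0 ∣[k] (γ : SL(2, ℤ))) := hA0d.slash k _
    refine eq_smul_of_pow_eq hA0d hB hm.ne' (Units.ne_zero _) hA0ne (fun z => ?_)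
    have h1 : (A0 ∣[k] (γ : SL(2, ℤ))) ^ m = ((ψ γ : ℂˣ) : ℂ) • (A0 ^ m) := by
      rw [← pow_slash_SL2, hA0pow, H.slash γ]
    have h2 := congrFun h1 z
    simpa only [Pi.pow_apply, Pi.smul_apply, smul_eq_mul] using h2
  choose ζ hζpow hζ using hex
  have huniq : ∀ c c' : ℂ, c • A0 = c' • A0 → c = c' := by
    intro c c' h
    obtain ⟨τ, hτ⟩ := Function.ne_iff.mp hA0ne
    have h1 := congrFun h τ
    simp only [Pi.smul_apply, smul_eq_mul] at h1
    exact mul_right_cancel₀ hτ h1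
  have hζne : ∀ γ, ζ γ ≠ 0 := by
    intro γ h0
    have h1 := hζpow γ
    rw [h0, zero_pow hm.ne'] at h1
    exact Units.ne_zero _ h1.symm
  have hζmul : ∀ γ γ' : ↥(Gamma0 N), ζ (γ * γ') = ζ γ * ζ γ' := by
    intro γ γ'
    apply huniq
    rw [← hζ (γ * γ')]
    have h1 : ((γ * γ' : ↥(Gamma0 N)) : SL(2, ℤ)) = (γ : SL(2, ℤ)) * (γ' : SL(2, ℤ)) := rfl
    rw [h1, SlashAction.slash_mul, hζ γ, SL_smul_slash, hζ γ', smul_smul]
  have hζone : ζ 1 = 1 := by
    apply huniq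
    rw [← hζ 1, one_smul]
    have h1 : ((1 : ↥(Gamma0 N)) : SL(2, ℤ)) = 1 := rfl
    rw [h1, SlashAction.slash_one]
  let χ : ↥(Gamma0 N) →* ℂˣ :=
    { toFun := fun γ => Units.mk0 (ζ γ) (hζne γ)
      map_one' := Units.ext (by simpa using hζone)
      map_mul' := fun γ γ' => Units.ext (by simpa using hζmul γ γ') }
  have hχ : ∀ γ, ((χ γ : ℂˣ) : ℂ) = ζ γ := fun γ => rfl
  refine ⟨χ, ⟨A0, hA0d, fun γ => by rw [hχ]; exact hζ γ, fun σ => ?_⟩, ?_,
    fun z => congrFun hA0pow z⟩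
  · apply isBoundedAtImInfty_of_pow hm.ne'
    rw [← pow_slash_SL2, hA0pow]
    exact H.bdd σ
  · ext γ
    rw [MonoidHom.pow_apply, Units.val_pow_eq_pow_val, hχ, hζpow]

end Fermat.Agent.FF2.G0b
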