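import Mathlib
import Fermat.Agent.Jac.DivOrdC
import Fermat.Agent.Jac.DictC.PlaceDict
import Fermat.Agent.X0.ACL.PlaceOfVal

/-!
# MOONSHOT S19, node (G0-2b): the place of `Fc N` attached to a point of `ℍ`

`exists_place_ordMer N z` : for every `z : ℍ` there are a place `t` of `Fc N` and an integer `e > 0`
with `ordMer z (thetaMer N y) = e * t.ord y` for all `y ≠ 0` (the converse direction of
`DictC.exists_point_of_place`).  Consequently (`dvd_ordMer_thetaMer`) if `m ∣ P.ord y` for every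
place `P` then `m ∣ ordMer z (thetaMer N y)` for every `z : ℍ`.
-/

set_option autoImplicit false
set_option linter.unusedSectionVars false

open UpperHalfPlane CongruenceSubgroup
open scoped MatrixGroups Manifold

namespace Fermat.Agent.FF2.G0b

open Fermat.Agent.Jac Fermat.Agent.Jac.DictC AlgebraicCurve
open Fermat.Agent.X0 (ordH ordMer IsValFun ordH_eq_zero_iff jFun)

variable (N : ℕ) [NeZero N]

theorem isValFun_wPt (z0 : ℍ) (c : SL(2, ℤ) ⧸ Gamma0 N) : IsValFun Kc (wPt N z0 c) :=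
  ⟨wPt_mul N z0 c, wPt_add N z0 c, wPt_alg N z0 c⟩

theorem wPt_jBar_sub_pos (z0 : ℍ) (c : SL(2, ℤ) ⧸ Gamma0 N) :
    0 < wPt N z0 c (jBar N - algebraMap Kc (Fc N) (jFun z0)) := by
  rw [wPt_jBar_sub N z0 c (jFun z0) rfl]
  have h : ordH (fun w => jFun w - jFun z0) z0 ≠ 0 := by
    rw [Ne, ordH_eq_zero_iff (DictC.jFun_sub_mdiff z0) (DictC.jFun_sub_ne_zero z0) z0]
    simp
  exact_mod_cast Nat.pos_of_ne_zero h

theorem jBar_sub_ne_zero (z0 : ℍ) : jBar N - algebraMap Kc (Fc N) (jFun z0) ≠ 0 := by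
  intro h
  have h1 : jBar N = algebraMap Kc (Fc N) (jFun z0) := sub_eq_zero.mp h
  have h2 : Transcendental Kc (jBar N) := (jBar_isSepVar N).transcendental
  rw [h1] at h2
  exact h2 (isAlgebraic_algebraMap _)

/-- **The place of a point.** -/
theorem exists_place_ordMer (z : ℍ) : ∃ (e : ℤ) (t : Place Kc (Fc N)), 0 < e ∧
    ∀ y : Fc N, y ≠ 0 → ordMer z (thetaMer N y) = e * t.ord y := by
  set c : SL(2, ℤ) ⧸ Gamma0 N := ((1 : SL(2, ℤ)) : SL(2, ℤ) ⧸ Gamma0 N) with hc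
  have hw := isValFun_wPt N z c
  obtain ⟨e, -, he, -, -, -, hmul⟩ :=
    hw.exists_eq_mul_ord (jBar_sub_ne_zero N z) (wPt_jBar_sub_pos N z c)
  refine ⟨e, hw.place (jBar_sub_ne_zero N z) (wPt_jBar_sub_pos N z c), he, fun y hy => ?_⟩
  rw [← hmul y hy, hc, wPt_mk_eq_ordMer (1 : SL(2, ℤ)) z hy, inv_one, one_smul]

theorem dvd_ordMer_thetaMer {m : ℕ} {y : Fc N} (hy : y ≠ 0)
    (hdvd : ∀ P : Place Kc (Fc N), (m : ℤ) ∣ P.ord y) (z : ℍ) :
    (m : ℤ) ∣ ordMer z (thetaMer N y) := by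
  obtain ⟨e, t, -, h⟩ := exists_place_ordMer N z
  rw [h y hy]
  exact Dvd.dvd.mul_left (hdvd t) e

end Fermat.Agent.FF2.G0b
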