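import Mathlib
import Fermat.Agent.Jac.DictC.KummerDvd
import Fermat.Agent.FF2.G0b.FormRoot
import Fermat.Agent.FF2.G0b.PointPlace

/-!
# MOONSHOT S19, node (G0-2b): every `m`-divisible principal divisor on `X₀(N)_ℂ` has a Kummer triple

`exists_isMF_pow_eq` : if `y ∈ Fc N`, `y ≠ 0`, and `m ∣ ord_P y` for every place `P`, then there are a
character `χ` of `Γ₀(N)` with `χ ^ m = 1` and a multiplicative function `G` (an `IsCharRatio`) with
character `χ` such that `thetaMer N y = G ^ m`.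

`exists_isTriple_of_nsmul_eq_divOf` : the same as a Kummer triple for `kummerDataC' N`
(`Jac/Kappa.lean`): if `m • E = divOf y` then `(G, y, E)` is a triple for `(m, χ)`.
-/

set_option autoImplicit false
set_option linter.unusedSectionVars false

open UpperHalfPlane ModularForm CongruenceSubgroup
open scoped MatrixGroups Manifold ModularForm

noncomputable section

namespace Fermat.Agent.FF2.G0b

open Fermat.Agent.Jac Fermat.Agent.Jac.DictC AlgebraicCurve
open Fermat.Agent.X0 (HolH MerH ordH ordMer ordHol ordH_mul)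

variable {N : ℕ} [NeZero N]

theorem exists_isMF_pow_eq {m : ℕ} (hm : 0 < m) {y : Fc N} (hy : y ≠ 0)
    (hdvd : ∀ P : Place Kc (Fc N), (m : ℤ) ∣ P.ord y) :
    ∃ (χ : ↥(Gamma0 N) →* ℂˣ) (G : MerH), χ ^ m = 1 ∧ G ≠ 0 ∧ IsCharRatio N G ∧
      (∀ γ : ↥(Gamma0 N), γ • G = algebraMap ℂ MerH ((χ γ : ℂˣ) : ℂ) * G) ∧
      thetaMer N y = G ^ m := by
  obtain ⟨k, f, g, hg, hfg⟩ := thetaMer_mem_autoField y
  have hgm : merOf g ≠ 0 := (merOf_eq_zero_iff g).not.mpr hg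
  have hθ : thetaMer N y ≠ 0 := (map_ne_zero (thetaMer N)).mpr hy
  have hfm : merOf f ≠ 0 := by
    rw [← hfg]
    exact mul_ne_zero hθ hgm
  have hf : f ≠ 0 := fun h => hfm ((merOf_eq_zero_iff f).mpr h)
  have hθe : thetaMer N y = merOf f / merOf g := by
    rw [← hfg, mul_div_cancel_right₀ _ hgm]
  -- as forms with character
  set fC : CharForm N k 1 := CharForm.ofModularForm f with hfC
  set gC : CharForm N k 1 := CharForm.ofModularForm g with hgC
  have hf0 : (f : ℍ → ℂ) ≠ 0 := fun h => hf (DFunLike.coe_injective h)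
  have hg0 : (g : ℍ → ℂ) ≠ 0 := fun h => hg (DFunLike.coe_injective h)
  have hfd : MDiff (f : ℍ → ℂ) := ModularFormClass.holo f
  have hgd : MDiff (g : ℍ → ℂ) := ModularFormClass.holo g
  have hgp0 : (g : ℍ → ℂ) ^ (m - 1) ≠ 0 := by
    obtain ⟨τ, hτ⟩ := Function.ne_iff.mp hg0
    intro h
    exact pow_ne_zero (m - 1) hτ (by simpa using congrFun h τ)
  have hwt : k + ((m - 1 : ℕ) : ℤ) * k = (m : ℤ) * k := by
    have : ((m - 1 : ℕ) : ℤ) = (m : ℤ) - 1 := by
      rw [Nat.cast_sub hm]; simp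
    rw [this]; ring
  have hch : (1 : ↥(Gamma0 N) →* ℂˣ) * 1 ^ (m - 1) = 1 := by
    ext γ
    simp
  set H : CharForm N ((m : ℤ) * k) 1 := (fC.mul (gC.pow (m - 1))).cast hwt hch with hHdef
  have hHfun : (H : ℍ → ℂ) = (f : ℍ → ℂ) * (g : ℍ → ℂ) ^ (m - 1) := rfl
  have hH0 : (H : ℍ → ℂ) ≠ 0 := by
    rw [hHfun]
    intro h
    rcases (UpperHalfPlane.mul_eq_zero_iff hfd (mdifferentiable_pow hgd (m - 1))).mp h with h1 | h1
    · exact hf0 h1
    · exact hgp0 h1
  -- divisibility of the orders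
  have hHdvd : ∀ z : ℍ, m ∣ ordH (H : ℍ → ℂ) z := by
    intro z
    have h1 : (m : ℤ) ∣ ordMer z (thetaMer N y) := dvd_ordMer_thetaMer N hy hdvd z
    have hfh : Fermat.Agent.Jac.holOf f ≠ 0 := (holOf_eq_zero_iff f).not.mpr hf
    have hgh : Fermat.Agent.Jac.holOf g ≠ 0 := (holOf_eq_zero_iff g).not.mpr hg
    have h2 : ordMer z (thetaMer N y) = (ordH (f : ℍ → ℂ) z : ℤ) - (ordH (g : ℍ → ℂ) z : ℤ) := by
      rw [hθe]
      exact ordMer_algebraMap_div z hfh hgh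
    have h3 : ordH (H : ℍ → ℂ) z = ordH (f : ℍ → ℂ) z + (m - 1) * ordH (g : ℍ → ℂ) z := by
      rw [hHfun, ordH_mul hfd (mdifferentiable_pow hgd (m - 1)) hf0 hgp0, ordH_pow' hgd hg0]
    rw [h2] at h1
    have h4 : ((ordH (H : ℍ → ℂ) z : ℕ) : ℤ) =
        ((ordH (f : ℍ → ℂ) z : ℤ) - (ordH (g : ℍ → ℂ) z : ℤ)) + (m : ℤ) * ordH (g : ℍ → ℂ) z := by
      rw [h3]
      push_cast
      rw [Nat.cast_sub hm]
      push_cast
      ring
    have h5 : (m : ℤ) ∣ ((ordH (H : ℍ → ℂ) z : ℕ) : ℤ) := by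
      rw [h4]
      exact dvd_add h1 (Dvd.intro _ rfl)
    exact_mod_cast h5
  obtain ⟨χ, A, hχ, hA⟩ := exists_charForm_pow_eq hm H hH0 hHdvd
  have hχfin : IsOfFinOrder χ := isOfFinOrder_iff_pow_eq_one.mpr ⟨m, hm, hχ⟩
  have hgCm : gC.mer ≠ 0 := by
    rw [hgC, CharForm.mer_ofModularForm]
    exact hgm
  -- `A.mer ^ m = fC.mer * gC.mer ^ (m - 1)`
  have hAm : A.mer ^ m = fC.mer * gC.mer ^ (m - 1) := by
    rw [← CharForm.mer_pow, ← CharForm.mer_pow, ← CharForm.mer_mul]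
    unfold CharForm.mer
    congr 1
    apply Fermat.Agent.Jac.holOf_ext
    intro z
    exact hA z
  have hA0 : A.mer ≠ 0 := by
    intro h
    rw [h, zero_pow hm.ne'] at hAm
    have hfCm : fC.mer ≠ 0 := by
      rw [hfC, CharForm.mer_ofModularForm]
      exact hfm
    exact mul_ne_zero hfCm (pow_ne_zero _ hgCm) hAm.symm
  refine ⟨χ⁻¹, A.mer / gC.mer, ?_, div_ne_zero hA0 hgCm,
    CharForm.isCharRatio_div hχfin IsOfFinOrder.one A gC hgCm, fun γ => ?_, ?_⟩
  · have h1 : ∀ γ, (χ γ) ^ m = 1 := fun γ => by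
      have := congrArg (fun ψ : ↥(Gamma0 N) →* ℂˣ => ψ γ) hχ
      simpa using this
    ext γ
    simp [h1 γ]
  · rw [subgroup_smul_mer, CharForm.smul_mer_div, algebraMap_mer]
    congr 2
    rw [MonoidHom.one_apply, Units.val_one, div_one, MonoidHom.inv_apply, map_inv]
  · rw [hθe, div_pow, hAm]
    have e1 : gC.mer ^ m = gC.mer * gC.mer ^ (m - 1) := by
      rw [← pow_succ', Nat.sub_add_cancel hm]
    rw [e1, mul_div_mul_right _ _ (pow_ne_zero _ hgCm), hfC, hgC, CharForm.mer_ofModularForm,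
      CharForm.mer_ofModularForm]

end Fermat.Agent.FF2.G0b
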