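import Mathlib
import Fermat.Agent.Jac.Kappa
import Fermat.Agent.FF2.G0b.KummerRoot

/-!
# MOONSHOT S19, node (G0-2b): the Kummer character of an `m`-divisible function on `X₀(N)_ℂ`

`HasKummerChar m y χ` : `thetaMer N y = G ^ m` for a multiplicative function `G` (in the sense of
`kummerDataC' N`) with character `χ`.

* `exists_hasKummerChar` : exists as soon as `m ∣ ord_P y` for all places `P` (and then `χ ^ m = 1`);
* `HasKummerChar.unique` : `χ` is determined by `y`;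
* `HasKummerChar.mul`, `.inv`, `hasKummerChar_pow` : `y ↦ χ` is a homomorphism, trivial on `m`-th
  powers;
* `HasKummerChar.exists_pow_eq` : **injectivity**: `χ = 1` forces `y = v ^ m` with `v ∈ Fc N`.

So `{y ≠ 0 | m ∣ div y} / (Fc N)ˣ ^ m ↪ {χ : Γ₀(N) →* ℂˣ | χ ^ m = 1}`, a finite set.
-/

set_option autoImplicit false
set_option linter.unusedSectionVars false

open UpperHalfPlane ModularForm CongruenceSubgroup
open scoped MatrixGroups Manifold ModularForm

noncomputable section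

namespace Fermat.Agent.FF2.G0b

open Fermat.Agent.Jac Fermat.Agent.Jac.DictC AlgebraicCurve
open Fermat.Agent.X0 (HolH MerH)

variable {N : ℕ} [NeZero N]

/-- `y` has Kummer character `χ` (with respect to `m`). -/
def HasKummerChar (m : ℕ) (y : Fc N) (χ : ↥(Gamma0 N) →* ℂˣ) : Prop :=
  ∃ G : MerH, (kummerDataC' N).IsMF χ G ∧ thetaMer N y = G ^ m

theorem exists_hasKummerChar {m : ℕ} (hm : 0 < m) {y : Fc N} (hy : y ≠ 0)
    (hdvd : ∀ P : Place Kc (Fc N), (m : ℤ) ∣ P.ord y) :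
    ∃ χ : ↥(Gamma0 N) →* ℂˣ, χ ^ m = 1 ∧ HasKummerChar m y χ := by
  obtain ⟨χ, G, hχ, hG0, hGa, hGχ, hGy⟩ := exists_isMF_pow_eq hm hy hdvd
  exact ⟨χ, hχ, G, ⟨hG0, hGa, hGχ⟩, hGy⟩

variable {m : ℕ} {y y' : Fc N} {χ χ' : ↥(Gamma0 N) →* ℂˣ}

theorem HasKummerChar.ne_zero (h : HasKummerChar m y χ) : y ≠ 0 := by
  obtain ⟨G, hG, hy⟩ := h
  rintro rfl
  rw [map_zero] at hy
  exact pow_ne_zero m hG.ne_zero hy.symm

theorem HasKummerChar.unique (hm : 0 < m) (h : HasKummerChar m y χ)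
    (h' : HasKummerChar m y χ') : χ = χ' := by
  obtain ⟨G, hG, hy⟩ := h
  obtain ⟨G', hG', hy'⟩ := h'
  have hq := hG.div hG'
  have hpow : (G / G') ^ m = algebraMap ℂ MerH 1 := by
    rw [div_pow, ← hy, ← hy', div_self ((map_ne_zero (thetaMer N)).mpr
      (HasKummerChar.ne_zero ⟨G, hG, hy⟩)), map_one]
  obtain ⟨b, hb⟩ := KummerData.exists_algebraMap_eq_of_pow_eq (K := ℂ) hm hpow
  have h1 := hq.char_eq_one_of_const hb
  exact div_eq_one.mp h1

theorem HasKummerChar.mul (h : HasKummerChar m y χ) (h' : HasKummerChar m y' χ') :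
    HasKummerChar m (y * y') (χ * χ') := by
  obtain ⟨G, hG, hy⟩ := h
  obtain ⟨G', hG', hy'⟩ := h'
  exact ⟨G * G', hG.mul hG', by rw [map_mul, hy, hy', mul_pow]⟩

theorem HasKummerChar.inv (h : HasKummerChar m y χ) : HasKummerChar m y⁻¹ χ⁻¹ := by
  obtain ⟨G, hG, hy⟩ := h
  exact ⟨G⁻¹, hG.inv, by rw [map_inv₀, hy, inv_pow]⟩

theorem HasKummerChar.div (h : HasKummerChar m y χ) (h' : HasKummerChar m y' χ') :
    HasKummerChar m (y / y') (χ / χ') := by
  rw [div_eq_mul_inv y, div_eq_mul_inv χ]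
  exact h.mul h'.inv

theorem hasKummerChar_pow (m : ℕ) {v : Fc N} (hv : v ≠ 0) :
    HasKummerChar m (v ^ m) (1 : ↥(Gamma0 N) →* ℂˣ) :=
  ⟨thetaMer N v, KummerData.isMF_θ (D := kummerDataC' N) hv, map_pow _ _ _⟩

/-- **Injectivity of the Kummer character.** -/
theorem HasKummerChar.exists_pow_eq (h : HasKummerChar m y (1 : ↥(Gamma0 N) →* ℂˣ)) :
    ∃ v : Fc N, v ≠ 0 ∧ y = v ^ m := by
  obtain ⟨G, hG, hy⟩ := h
  obtain ⟨v, hv, hvG⟩ := hG.exists_θ_eq
  refine ⟨v, hv, ?_⟩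
  apply (thetaMer N).injective
  rw [hy, map_pow]
  congr 1
  exact hvG.symm

/-- Two functions with the same Kummer character differ by an `m`-th power. -/
theorem HasKummerChar.exists_div_eq_pow (h : HasKummerChar m y χ) (h' : HasKummerChar m y' χ) :
    ∃ v : Fc N, v ≠ 0 ∧ y / y' = v ^ m := by
  have := h.div h'
  rw [div_self' χ] at this
  exact this.exists_pow_eq

theorem HasKummerChar.pow_eq_one (hm : 0 < m) (h : HasKummerChar m y χ) : χ ^ m = 1 := by
  have h1 : HasKummerChar m (y ^ m) (χ ^ m) := by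
    obtain ⟨G, hG, hy⟩ := h
    exact ⟨G ^ m, hG.pow m, by rw [map_pow, hy]⟩
  exact h1.unique hm (hasKummerChar_pow m h.ne_zero)

end Fermat.Agent.FF2.G0b
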