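import Mathlib
import Fermat.Agent.FF2.G0b.KummerChar
import Fermat.Agent.FF2.G0T.Transfer
import Fermat.Agent.FF2.G0.FiniteHom

/-!
# MOONSHOT S19, node (G0): `J₀(N)[m]` is finite

`finite_torsionBy_JZero N m` : for `m > 0` the `m`-torsion of `JZero N = Pic⁰(X₀(N)_ℚ̄)` is finite.

Proof: a class `x = [D]` with `m • D = div f` (`f` in the function field over `ℚ̄`) is sent to the
Kummer character `χ` of `bcHom f ∈ Fc N` (`G0b/KummerChar.lean`; divisibility of the orders over `ℂ`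
by `G0T.dvd_ord_bcHom`); `χ ^ m = 1`, and two classes with the same character are equal
(`HasKummerChar.exists_div_eq_pow` + `G0T.isPrincipal_of_bcHom_eq_pow`).  The set of characters
killed by `m` is finite (`G0.finite_char_pow_eq_one`).
-/

set_option autoImplicit false
set_option linter.unusedSectionVars false

open UpperHalfPlane CongruenceSubgroup
open scoped MatrixGroups

noncomputable section

namespace Fermat.Agent.FF2.G0b

open Fermat.Agent.Jac Fermat.Agent.Jac.DictC AlgebraicCurve ModularCurve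
open Fermat.Agent.Jac.Descent (bcHom)

variable (N : ℕ) [NeZero N]

/-- An embedding `ℚ̄ → ℂ`. -/
def iotaBar : AlgebraicClosure ℚ →+* ℂ :=
  letI : Algebra ℚ (AlgebraicClosure ℚ) := AlgebraicClosure.instAlgebra ℚ
  haveI : Algebra.IsAlgebraic ℚ (AlgebraicClosure ℚ) := AlgebraicClosure.isAlgebraic ℚ
  ((IsAlgClosed.lift : AlgebraicClosure ℚ →ₐ[ℚ] ℂ) : AlgebraicClosure ℚ →+* ℂ)

/-- The base change `ℚ̄(X₀(N)) → ℂ(X₀(N))`. -/
def bcBar : ↥(modularFunctionFieldBar N) →+* Fc N :=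
  bcHom iotaBar (modularFunctionFieldFull N)

/-- The class `x` has Kummer character `χ`. -/
def ClassChar (m : ℕ) (x : JZero N) (χ : ↥(Gamma0 N) →* ℂˣ) : Prop :=
  ∃ (D : Divisor.degZero (K := AlgebraicClosure ℚ) (F := ↥(modularFunctionFieldBar N)))
    (f : ↥(modularFunctionFieldBar N)), Pic0.mk D = x ∧ f ≠ 0 ∧
    (∀ v : Place (AlgebraicClosure ℚ) ↥(modularFunctionFieldBar N),
      (m : ℤ) * (D : Divisor (AlgebraicClosure ℚ) ↥(modularFunctionFieldBar N)) v = v.ord f) ∧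
    HasKummerChar m (bcBar N f) χ

variable {N}

theorem exists_classChar {m : ℕ} (hm : 0 < m) {x : JZero N} (hx : (m : ℤ) • x = 0) :
    ∃ χ : ↥(Gamma0 N) →* ℂˣ, χ ^ m = 1 ∧ ClassChar N m x χ := by
  obtain ⟨D, rfl⟩ := Pic0.mk_surjective x
  have h1 : (m : ℤ) • D ∈ (Divisor.principal (K := AlgebraicClosure ℚ)
      (F := ↥(modularFunctionFieldBar N))).addSubgroupOf Divisor.degZero := by
    have h2 : Pic0.mk ((m : ℤ) • D) = 0 := hx
    exact (QuotientAddGroup.eq_zero_iff _).mp h2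
  obtain ⟨f, hf, hfD⟩ : Divisor.IsPrincipal
      (((m : ℤ) • D : Divisor.degZero) : Divisor (AlgebraicClosure ℚ)
        ↥(modularFunctionFieldBar N)) := h1
  have hD : ∀ v : Place (AlgebraicClosure ℚ) ↥(modularFunctionFieldBar N),
      (m : ℤ) * (D : Divisor (AlgebraicClosure ℚ) ↥(modularFunctionFieldBar N)) v = v.ord f := by
    intro v
    rw [← hfD v]
    simp
  have hy : bcBar N f ≠ 0 := (map_ne_zero (bcBar N)).mpr hf
  have hdvd : ∀ w : Place Kc (Fc N), (m : ℤ) ∣ w.ord (bcBar N f) := by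
    intro w
    exact Fermat.Agent.FF2.G0T.dvd_ord_bcHom iotaBar (modularFunctionFieldFull N) f
      (fun v => ⟨_, (hD v).symm⟩) w
  obtain ⟨χ, hχ, hK⟩ := exists_hasKummerChar hm hy hdvd
  exact ⟨χ, hχ, D, f, rfl, hf, hD, hK⟩

theorem ClassChar.eq {m : ℕ} (hm : 0 < m) {x x' : JZero N} {χ : ↥(Gamma0 N) →* ℂˣ}
    (h : ClassChar N m x χ) (h' : ClassChar N m x' χ) : x = x' := by
  obtain ⟨D, f, rfl, hf, hD, hK⟩ := h
  obtain ⟨D', f', rfl, hf', hD', hK'⟩ := h'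
  obtain ⟨v, -, hv⟩ := hK.exists_div_eq_pow hK'
  have hv' : v ^ m = bcBar N (f / f') := by
    rw [map_div₀, hv]
  have hp : Divisor.IsPrincipal
      (((D - D' : Divisor.degZero) : Divisor (AlgebraicClosure ℚ)
        ↥(modularFunctionFieldBar N))) := by
    refine Fermat.Agent.FF2.G0T.isPrincipal_of_bcHom_eq_pow iotaBar (modularFunctionFieldFull N)
      hm.ne' _ (f / f') (div_ne_zero hf hf') (fun w => ?_) v hv'
    rw [AddSubgroup.coe_sub, Finsupp.sub_apply, mul_sub, hD w, hD' w, div_eq_mul_inv,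
      w.ord_mul hf (inv_ne_zero hf'), w.ord_inv]
    ring
  have h0 : Pic0.mk (D - D') = 0 := (QuotientAddGroup.eq_zero_iff _).mpr hp
  have h1 : Pic0.mk (D - D') = Pic0.mk D - Pic0.mk D' := rfl
  rw [h1, sub_eq_zero] at h0
  exact h0

/-- **(G0).** The `m`-torsion of `J₀(N)(ℚ̄)` is finite. -/
theorem finite_torsionBy_JZero (N : ℕ) [NeZero N] (m : ℕ) (hm : 0 < m) :
    Finite ↥(Submodule.torsionBy ℤ (JZero N) (m : ℤ)) := by
  have hfin : {χ : ↥(Gamma0 N) →* ℂˣ | χ ^ m = 1}.Finite :=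
    Fermat.Agent.FF2.G0.finite_char_pow_eq_one N m hm
  have : Finite ↥{χ : ↥(Gamma0 N) →* ℂˣ | χ ^ m = 1} := hfin.to_subtype
  have hex : ∀ x : ↥(Submodule.torsionBy ℤ (JZero N) (m : ℤ)),
      ∃ χ : ↥(Gamma0 N) →* ℂˣ, χ ^ m = 1 ∧ ClassChar N m (x : JZero N) χ := fun x =>
    exists_classChar hm ((Submodule.mem_torsionBy_iff _ _).mp x.2)
  choose Φ hΦ1 hΦ2 using hex
  refine Finite.of_injective
    (fun x => (⟨Φ x, hΦ1 x⟩ : ↥{χ : ↥(Gamma0 N) →* ℂˣ | χ ^ m = 1})) ?_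
  intro x x' hxx'
  have h1 : Φ x = Φ x' := congrArg Subtype.val hxx'
  apply Subtype.ext
  have h2 := hΦ2 x'
  rw [← h1] at h2
  exact (hΦ2 x).eq hm h2

/-- The form used by the S19 sink. -/
theorem finite_torsionBy_JZero_pow (p : ℕ) [NeZero p] (ℓ : ℕ) [Fact ℓ.Prime] (k : ℕ) :
    Finite ↥(Submodule.torsionBy ℤ (JZero p) ((ℓ : ℤ) ^ k)) := by
  have h := finite_torsionBy_JZero p (ℓ ^ k) (pow_pos (Fact.out : ℓ.Prime).pos k)
  have e : ((ℓ ^ k : ℕ) : ℤ) = (ℓ : ℤ) ^ k := by push_cast; rfl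
  rwa [e] at h

end Fermat.Agent.FF2.G0b
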